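import Mathlib
import Fermat.Agent.LT.H129.SplitSpec

/-!
# Row LT, tower T3, sub-leaf T3.18a.4.5.M2 `ProdHaarC129` (helper800), OFF-MAIN

`prodHaarC800 : H129.ProdHaarC129`, the Prop of `LT/H129/SplitSpec.lean`
(helper129@d13fee826, sha256 3547169edd0252c3) VERBATIM.  Mathlib only.

Proof.  `ν₀` = a Haar measure of `A`, `π` = Lebesgue measure of `ι → ℂ`; `ν₀.prod π` is a Haar
measure of `A × (ι → ℂ)`, so `μ = c • ν₀.prod π` (uniqueness, second countable case); Fubini for
pure tensors (`integral_prod_mul`, `integral_fintype_prod_volume_eq_prod`).  Integrability: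
the pure tensor is continuous with compact support.
-/

set_option autoImplicit false

open MeasureTheory

noncomputable section

namespace Fermat.Agent.LT.T3.H800

/-- A pure tensor of functions with compact support has compact support. -/
theorem hasCompactSupport_tensor800 {A ι : Type} [TopologicalSpace A] [T2Space A] [Fintype ι]
    {φ₀ : A → ℂ} {φ : ι → ℂ → ℂ} (h₀ : HasCompactSupport φ₀)
    (h : ∀ w, HasCompactSupport (φ w)) :
    HasCompactSupport (fun p : A × (ι → ℂ) => φ₀ p.1 * ∏ w : ι, φ w (p.2 w)) := by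
  have hK : IsCompact (tsupport φ₀ ×ˢ Set.pi Set.univ fun w => tsupport (φ w)) :=
    h₀.prod (isCompact_univ_pi fun w => h w)
  refine HasCompactSupport.intro hK fun p hp => ?_
  by_contra hne
  apply hp
  have h1 : φ₀ p.1 ≠ 0 := fun h0 => hne (by rw [h0, zero_mul])
  have h2 : ∏ w : ι, φ w (p.2 w) ≠ 0 := fun h0 => hne (by rw [h0, mul_zero])
  refine ⟨subset_tsupport _ h1, fun w _ => subset_tsupport _ ?_⟩
  exact (Finset.prod_ne_zero_iff.mp h2) w (Finset.mem_univ w)

/-- **Sub-leaf M2 `ProdHaarC129`.** -/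
theorem prodHaarC800 : Fermat.Agent.LT.H129.ProdHaarC129 := by
  intro A _ _ _ _ _ _ ι _
  let _ : MeasurableSpace A := borel A
  have : BorelSpace A := ⟨rfl⟩
  intro μ hμ
  refine ⟨Measure.addHaar, inferInstance, ?_⟩
  set ν₀ : Measure A := Measure.addHaar with hν₀
  have hν₀' : ν₀.IsAddHaarMeasure := by rw [hν₀]; infer_instance
  set m : Measure (A × (ι → ℂ)) := ν₀.prod (volume : Measure (ι → ℂ)) with hm
  have hm' : m.IsAddHaarMeasure := Measure.prod.instIsAddHaarMeasure _ _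
  have hμm : μ = Measure.addHaarScalarFactor μ m • m := Measure.isAddLeftInvariant_eq_smul μ m
  refine ⟨((Measure.addHaarScalarFactor μ m : NNReal) : ℝ), fun φ₀ φ hc₀ hs₀ hc hs => ?_⟩
  have hcont : Continuous (fun p : A × (ι → ℂ) => φ₀ p.1 * ∏ w : ι, φ w (p.2 w)) :=
    (hc₀.comp continuous_fst).mul
      (continuous_finsetProd _ fun w _ => (hc w).comp ((continuous_apply w).comp continuous_snd))
  have hsupp := hasCompactSupport_tensor800 hs₀ hs
  refine ⟨hcont.integrable_of_hasCompactSupport hsupp, ?_⟩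
  have h1 : ∫ p, φ₀ p.1 * ∏ w : ι, φ w (p.2 w) ∂μ
      = ((Measure.addHaarScalarFactor μ m : NNReal) : ℝ)
        • ∫ p, φ₀ p.1 * ∏ w : ι, φ w (p.2 w) ∂m := by
    conv_lhs => rw [hμm]
    rw [integral_smul_nnreal_measure]
    rfl
  have h2 : ∫ p, φ₀ p.1 * ∏ w : ι, φ w (p.2 w) ∂m
      = (∫ x, φ₀ x ∂ν₀) * ∫ y : ι → ℂ, ∏ w : ι, φ w (y w) :=
    integral_prod_mul φ₀ (fun y : ι → ℂ => ∏ w : ι, φ w (y w))
  have h3 : ∫ y : ι → ℂ, ∏ w : ι, φ w (y w) = ∏ w : ι, ∫ z : ℂ, φ w z :=
    integral_fintype_prod_volume_eq_prod φ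
  rw [h1, h2, h3, Complex.real_smul, mul_assoc]

end Fermat.Agent.LT.T3.H800

end
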