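import Mathlib
import Fermat.Agent.LT.T3.H893.NIntSpec

/-!
# Row LT, tower T3, sub-leaf T3.18a.4.7 = N.7 `LocValInfC` (helper800), OFF-MAIN

`locValInfC800 : T3.AS.N893.LocValInfC K` for every number field `K`, the Prop of
`LT/T3/H893/NIntSpec.lean` (helper893@8b0672b54, sha256 1ddb5c4572c4) VERBATIM, UNCONDITIONAL.

Proof.  With `d₁ = (c₁ αʲ)_w`, `d₂ = (c₂)_w ∈ ℂˣ`: `z ↦ upperGL d₁ d₂ (z + t)` is continuous into
`GL₂(ℂ)` (units topology: the matrix and its inverse have continuous entries), the support is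
contained in the translate of the image of `tsupport F` under the entry `(0,1)`, Lebesgue measure
is translation invariant, `HasAbelN` at `(d₁, d₂)`, and `‖d₁‖ = ‖(c₁)_w‖ (w α)ʲ` because
`extensionEmbedding` is isometric and `‖α‖_w = w α`.
-/

set_option autoImplicit false

open IsDedekindDomain NumberField MeasureTheory
open Fermat.Agent.LT.H556.A0

noncomputable section

namespace Fermat.Agent.LT.T3.H800

open Fermat.Agent.LT.T3 Fermat.Agent.LT.T3.AS Fermat.Agent.LT.T3.AS.N893

/-! ## 1. `z ↦ [[d₁, z + t], [0, d₂]]` -/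

theorem continuous_upperGL800 (d₁ d₂ : ℂˣ) (t : ℂ) :
    Continuous (fun z : ℂ => upperGL d₁ d₂ (z + t)) := by
  rw [Units.continuous_iff]
  constructor
  · have h : (Units.val ∘ fun z : ℂ => upperGL d₁ d₂ (z + t))
        = fun z : ℂ => (!![(d₁ : ℂ), z + t; 0, (d₂ : ℂ)] : Matrix (Fin 2) (Fin 2) ℂ) := by
      funext z
      rfl
    rw [h]
    refine continuous_matrix fun i j => ?_
    fin_cases i <;> fin_cases j
    · exact continuous_const
    · exact continuous_id.add continuous_const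
    · exact continuous_const
    · exact continuous_const
  · have h : (fun z : ℂ => (((upperGL d₁ d₂ (z + t))⁻¹ : GL (Fin 2) ℂ) :
          Matrix (Fin 2) (Fin 2) ℂ))
        = fun z : ℂ => (!![((d₁⁻¹ : ℂˣ) : ℂ), -(((d₁⁻¹ : ℂˣ) : ℂ) * (z + t) * ((d₂⁻¹ : ℂˣ) : ℂ));
            0, ((d₂⁻¹ : ℂˣ) : ℂ)] : Matrix (Fin 2) (Fin 2) ℂ) := by
      funext z
      rfl
    rw [h]
    refine continuous_matrix fun i j => ?_
    fin_cases i <;> fin_cases j
    · exact continuous_const
    · exact ((continuous_const.mul (continuous_id.add continuous_const)).mul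
        continuous_const).neg
    · exact continuous_const
    · exact continuous_const

/-- The entry `(0,1)` is continuous on `GL₂(ℂ)`. -/
theorem continuous_entry800 :
    Continuous (fun g : GL (Fin 2) ℂ => (g : Matrix (Fin 2) (Fin 2) ℂ) 0 1) :=
  Continuous.matrix_elem (Units.continuous_val (M := Matrix (Fin 2) (Fin 2) ℂ)) 0 1

theorem hasCompactSupport_upperGL800 {F : GL (Fin 2) ℂ → ℂ} (hF : HasCompactSupport F)
    (d₁ d₂ : ℂˣ) (t : ℂ) :
    HasCompactSupport (fun z : ℂ => F (upperGL d₁ d₂ (z + t))) := by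
  have hC : IsCompact ((fun g : GL (Fin 2) ℂ => (g : Matrix (Fin 2) (Fin 2) ℂ) 0 1)
      '' tsupport F) := hF.image continuous_entry800
  have hC' : IsCompact ((fun y : ℂ => y - t) ''
      ((fun g : GL (Fin 2) ℂ => (g : Matrix (Fin 2) (Fin 2) ℂ) 0 1) '' tsupport F)) :=
    hC.image (continuous_id.sub continuous_const)
  refine HasCompactSupport.intro hC' fun z hz => ?_
  by_contra hne
  apply hz
  refine ⟨z + t, ⟨upperGL d₁ d₂ (z + t), subset_tsupport F hne, rfl⟩, ?_⟩
  simp

/-! ## 2. The norm of the component at `w` -/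

variable (K : Type) [Field K] [NumberField K]

theorem infHom_apply800 (w : InfinitePlace K) (x : Adl K) :
    infHom K w x = InfinitePlace.Completion.extensionEmbedding w (x.1 w) := rfl

theorem norm_infHom_algebraMap800 (w : InfinitePlace K) (a : K) :
    ‖infHom K w (algebraMap K (Adl K) a)‖ = w a := by
  rw [infHom_apply800, NumberField.AdeleRing.algebraMap_fst_apply]
  have h := (InfinitePlace.Completion.isometry_extensionEmbedding w).norm_map_of_map_zero
    (map_zero _) (a : w.Completion)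
  rw [h]
  exact InfinitePlace.Completion.norm_coe w (WithAbs.toAbs w.1 a)

theorem norm_infU_ratUnit800 (w : InfinitePlace K) (α : Kˣ) :
    ‖((infU K w (T1.ratUnit K α) : ℂˣ) : ℂ)‖ = w (α : K) := by
  rw [infU_coe]
  exact norm_infHom_algebraMap800 K w (α : K)

theorem norm_infU_mul_zpow800 (w : InfinitePlace K) (α : Kˣ) (c₁ : (Adl K)ˣ) (j : ℤ) :
    ‖((infU K w (c₁ * T1.ratUnit K α ^ j) : ℂˣ) : ℂ)‖
      = ‖((infU K w c₁ : ℂˣ) : ℂ)‖ * (w (α : K)) ^ j := by
  rw [map_mul, map_zpow, Units.val_mul, norm_mul, Units.val_zpow_eq_zpow_val, norm_zpow,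
    norm_infU_ratUnit800]

/-! ## 3. The leaf -/

/-- **Sub-leaf N.7 `LocValInfC`** (cut of helper893 of AS.4 `NIntC`). -/
theorem locValInfC800 : LocValInfC K := by
  intro α w F β hF hβ c₁ c₂ j t
  refine ⟨hF.cont.comp (continuous_upperGL800 _ _ t),
    hasCompactSupport_upperGL800 hF.supp _ _ t, ?_⟩
  have h1 : ∫ z : ℂ, F (upperGL (infU K w (c₁ * T1.ratUnit K α ^ j)) (infU K w c₂) (z + t))
      = ∫ z : ℂ, F (upperGL (infU K w (c₁ * T1.ratUnit K α ^ j)) (infU K w c₂) z) :=
    integral_add_right_eq_self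
      (fun z : ℂ => F (upperGL (infU K w (c₁ * T1.ratUnit K α ^ j)) (infU K w c₂) z)) t
  rw [h1, hβ, norm_infU_mul_zpow800]
  have hc₁ : 0 < ‖((infU K w c₁ : ℂˣ) : ℂ)‖ := norm_pos_iff.mpr (Units.ne_zero _)
  have hα : 0 < w (α : K) := by
    rw [← norm_infU_ratUnit800]
    exact norm_pos_iff.mpr (Units.ne_zero _)
  have hlog : Real.log (‖((infU K w c₁ : ℂˣ) : ℂ)‖ * (w (α : K)) ^ j)
      = Real.log ‖((infU K w c₁ : ℂˣ) : ℂ)‖ + j * Real.log (w (α : K)) := by
    rw [Real.log_mul hc₁.ne' (zpow_ne_zero _ hα.ne'), Real.log_zpow]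
  rw [hlog]
  congr 2
  ring

end Fermat.Agent.LT.T3.H800

end
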